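import Fermat.Agent.S28.DG.Abstract.UnitSum
import Fermat.Agent.S28.DG.Count

/-!
# S28, Part B3c: the reduction of `j_N` has at least `deg` conjugates

* `card_stab`: by `count_main` applied to `S = Stab Q`, `T = G` (hypotheses from `sum_order_stab`, `sum_order_G`, `order_U`):
  `#{g ∈ Stab Q | c g = N} * |G| = #{g ∈ G | c g = N} * |Stab Q|`.
* `{g | c g = N} = stabilizer G (J N)` (by `order_J`, `smul_J_of_c_eq`), so `deg = |G| / #{g | c g = N}` (orbit-stabiliser).
* `Stab Q` acts on `B/Q`; the stabiliser of `mk (J N)` is `{g ∈ Stab Q | c g = N}` (if `c g ≠ N` the orders of the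
  reduced expansions differ, `order_coeffMap_of_isUnit`).  So the orbit of `mk (J N)` under `Stab Q` has `deg` elements.
* all elements of that orbit are roots (in `B/Q`, a domain embedded in `k((q_N))`) of any polynomial over `k[j]` killing
  the reduction of `j_N`; a nonzero polynomial of degree `< deg` over the domain `k[j]` cannot have `deg` roots.
-/

set_option autoImplicit false
open ModularCurve
open scoped Pointwise
noncomputable section

namespace Fermat.Agent.S28.DG

namespace Indep

/-- `qExpand` multiplies orders by `N`. -/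
theorem order_qExpand {R : Type*} [CommRing R] (N : ℕ) [NeZero N] (f : LaurentSeries R) :
    (qExpand R N f).order = (N : ℤ) * f.order := by
  by_cases hf : f = 0
  · simp [hf]
  have hf' : qExpand R N f ≠ 0 := fun h => hf (qExpand_injective N (by simpa using h))
  apply le_antisymm
  · apply HahnSeries.order_le_of_coeff_ne_zero
    rw [qExpand_coeff_mul]
    exact HahnSeries.coeff_order_eq_zero.not.mpr hf
  · have h1 : (qExpand R N f).coeff (qExpand R N f).order ≠ 0 :=
      HahnSeries.coeff_order_eq_zero.not.mpr hf'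
    by_cases hd : (N : ℤ) ∣ (qExpand R N f).order
    · obtain ⟨m, hm⟩ := hd
      rw [hm] at h1 ⊢
      rw [qExpand_coeff_mul] at h1
      have := HahnSeries.order_le_of_coeff_ne_zero h1
      exact mul_le_mul_of_nonneg_left this (by positivity)
    · exact absurd (qExpand_coeff_of_not_dvd N f hd) h1

theorem algebraMap_eq_single {K : Type*} [CommRing K] (c : K) :
    algebraMap K (LaurentSeries K) c = HahnSeries.single 0 c :=
  P2MW.S_ModularCurve_coeff_jqModC_neg_one.ModularCurve.CharLRows.algebraMap_laurentSeries_eq_single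
    K c

/-- `j(q_N^N)` is transcendental over `k`. -/
theorem aeval_qExpand_jqModC_eq_zero {k : Type*} [Field k] (N : ℕ) [NeZero N] {p : Polynomial k}
    (hp : Polynomial.aeval (qExpand k N (jqModC k)) p = 0) : p = 0 := by
  have h1 : Polynomial.aeval (qExpand k N (jqModC k)) p
      = qExpand k N (Polynomial.aeval (jqModC k) p) := by
    rw [← qExpandAlgHomC_apply, ← qExpandAlgHomC_apply, Polynomial.aeval_algHom_apply]
  rw [h1] at hp
  have h2 : Polynomial.aeval (jqModC k) p = 0 := qExpand_injective N (by simpa using hp)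
  exact
    P2MW.S_ModularCurve_coeff_jqModC_neg_one.ModularCurve.CharLRows.aeval_jqModC_eq_zero k h2

end Indep

namespace CuspData

variable {N : ℕ} [NeZero N] {O : Type} [CommRing O] [IsDomain O] (D : CuspData N O)

/-- "expand at `∞`, then reduce mod `π`". -/
def redExp {k : Type} [Field k] (π : O →+* k) : D.B →+* LaurentSeries k :=
  (coeffMap π).comp (D.ε : D.B →+* LaurentSeries O)

theorem redExp_apply {k : Type} [Field k] (π : O →+* k) (b : D.B) :
    D.redExp π b = coeffMap π (D.ε b) := rfl

theorem mem_Q_iff {k : Type} [Field k] (π : O →+* k) (b : D.B) :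
    b ∈ D.Q π ↔ D.redExp π b = 0 := Iff.rfl

theorem redExp_J_one {k : Type} [Field k] (π : O →+* k) :
    D.redExp π (D.J 1) = qExpand k N (jqModC k) := by
  rw [redExp_apply, ε_J_one, coeffMap_qExpand, coeffMap_jqModC]

theorem redExp_J_N {k : Type} [Field k] (π : O →+* k) :
    D.redExp π (D.J N) = qExpand k N (qExpand k N (jqModC k)) := by
  rw [redExp_apply, ε_J_N, coeffMap_qExpand, coeffMap_qExpand, coeffMap_jqModC]

theorem redExp_comp_algebraMap {k : Type} [Field k] (π : O →+* k) :
    (D.redExp π).comp (algebraMap O D.B) = (algebraMap k (LaurentSeries k)).comp π := by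
  ext1 r
  rw [RingHom.comp_apply, RingHom.comp_apply, redExp_apply, AlgHom.commutes,
    Indep.algebraMap_eq_single, Indep.algebraMap_eq_single, coeffMap_single]

theorem redExp_aeval {k : Type} [Field k] (π : O →+* k) (x : D.B) (p : Polynomial O) :
    D.redExp π (Polynomial.aeval x p) = Polynomial.aeval (D.redExp π x) (p.map π) := by
  rw [Polynomial.aeval_def, Polynomial.hom_eval₂, redExp_comp_algebraMap, Polynomial.aeval_def,
    Polynomial.eval₂_map]

theorem smul_aeval_J_one (g : D.G) (p : Polynomial O) :
    g • Polynomial.aeval (D.J 1) p = Polynomial.aeval (D.J 1) p := by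
  have h : (MulSemiringAction.toRingHom D.G D.B g).comp (algebraMap O D.B) = algebraMap O D.B := by
    ext1 r
    exact D.smul_algebraMap g r
  change MulSemiringAction.toRingHom D.G D.B g _ = _
  rw [Polynomial.aeval_def, Polynomial.hom_eval₂, h]
  congr 1
  exact D.smul_J_one g

theorem c_one : D.c 1 = N := by
  have h := D.order_J 1
  rw [one_smul, ε_J_N, Indep.order_qExpand, Indep.order_qExpand,
    P2MW.S_ModularCurve_coeff_jqModC_neg_one.ModularCurve.CharLRows.order_jqModC] at h
  have h2 : ((D.c 1 : ℤ)) ^ 2 = (N : ℤ) ^ 2 := by linarith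
  have h3 : (D.c 1) ^ 2 = N ^ 2 := by exact_mod_cast h2
  exact Nat.pow_left_injective (n := 2) (by norm_num) h3

theorem order_redExp_smul_J {k : Type} [Field k] (π : O →+* k) (g : D.G) :
    (D.redExp π (g • D.J N)).order = - ((D.c g : ℤ) ^ 2) := by
  rw [redExp_apply, (order_coeffMap_of_isUnit π _ (D.isUnit_leadingCoeff_J g)).1, D.order_J]

theorem redExp_smul_J_eq_iff {k : Type} [Field k] (π : O →+* k) (g : D.G) :
    D.redExp π (g • D.J N) = D.redExp π (D.J N) ↔ D.c g = N := by
  constructor
  · intro h
    have h1 := D.order_redExp_smul_J π g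
    have h2 := D.order_redExp_smul_J π 1
    rw [one_smul, ← h, h1, c_one] at h2
    have h3 : (D.c g) ^ 2 = N ^ 2 := by
      have : ((D.c g : ℤ)) ^ 2 = (N : ℤ) ^ 2 := by linarith
      exact_mod_cast this
    exact Nat.pow_left_injective (n := 2) (by norm_num) h3
  · intro h
    rw [D.smul_J_of_c_eq g h dvd_rfl]

theorem mem_stabilizer_J_iff (g : D.G) : g ∈ MulAction.stabilizer D.G (D.J N) ↔ D.c g = N := by
  rw [MulAction.mem_stabilizer_iff]
  constructor
  · intro h
    have h1 := D.order_J g
    have h2 := D.order_J 1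
    rw [one_smul, ← h, h1, c_one] at h2
    have h3 : (D.c g) ^ 2 = N ^ 2 := by
      have : ((D.c g : ℤ)) ^ 2 = (N : ℤ) ^ 2 := by linarith
      exact_mod_cast this
    exact Nat.pow_left_injective (n := 2) (by norm_num) h3
  · intro h
    exact D.smul_J_of_c_eq g h dvd_rfl

theorem smul_mem_Q_iff {k : Type} [Field k] (π : O →+* k) {g : D.G}
    (hg : g ∈ MulAction.stabilizer D.G (D.Q π)) (b : D.B) : g • b ∈ D.Q π ↔ b ∈ D.Q π := by
  rw [MulAction.mem_stabilizer_iff] at hg
  conv_lhs => rw [← hg]
  exact Ideal.smul_mem_pointwise_smul_iff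

/-- two conjugates (under the decomposition group) of `J N` have the same reduction iff they are
equal. -/
theorem redExp_smul_eq_smul_iff {k : Type} [Field k] (π : O →+* k) {g h : D.G}
    (hh : h ∈ MulAction.stabilizer D.G (D.Q π)) :
    D.redExp π (g • D.J N) = D.redExp π (h • D.J N) ↔
      h⁻¹ * g ∈ MulAction.stabilizer D.G (D.J N) := by
  rw [mem_stabilizer_J_iff, ← redExp_smul_J_eq_iff D π, ← sub_eq_zero, ← map_sub, ← mem_Q_iff,
    ← D.smul_mem_Q_iff π (inv_mem hh), smul_sub, smul_smul, inv_smul_smul, mem_Q_iff, map_sub,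
    sub_eq_zero]

/-- the subgroup of the decomposition group fixing `J N`. -/
def stabJ {k : Type} [Field k] (π : O →+* k) : Subgroup (MulAction.stabilizer D.G (D.Q π)) :=
  (MulAction.stabilizer D.G (D.J N)).subgroupOf (MulAction.stabilizer D.G (D.Q π))

/-- the conjugates of the reduction of `J N`, indexed by cosets. -/
def conj {k : Type} [Field k] (π : O →+* k) :
    (MulAction.stabilizer D.G (D.Q π)) ⧸ D.stabJ π → LaurentSeries k :=
  Quotient.lift (fun g : MulAction.stabilizer D.G (D.Q π) => D.redExp π ((g : D.G) • D.J N)) (by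
    intro g h hgh
    have h1 : g⁻¹ * h ∈ D.stabJ π := QuotientGroup.leftRel_apply.mp hgh
    exact ((D.redExp_smul_eq_smul_iff π g.2).mpr h1).symm)

theorem conj_mk {k : Type} [Field k] (π : O →+* k) (g : MulAction.stabilizer D.G (D.Q π)) :
    D.conj π (QuotientGroup.mk g) = D.redExp π ((g : D.G) • D.J N) := rfl

theorem conj_injective {k : Type} [Field k] (π : O →+* k) : Function.Injective (D.conj π) := by
  intro x y
  induction x using QuotientGroup.induction_on with | H g => ?_
  induction y using QuotientGroup.induction_on with | H h => ?_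
  intro hxy
  rw [conj_mk, conj_mk] at hxy
  rw [QuotientGroup.eq]
  exact (D.redExp_smul_eq_smul_iff π g.2).mp hxy.symm

theorem card_quot {k : Type} [Field k] (π : O →+* k) (hπ : Function.Surjective π) :
    Nat.card ((MulAction.stabilizer D.G (D.Q π)) ⧸ D.stabJ π) = D.deg := by
  classical
  have : Fintype D.G := Fintype.ofFinite _
  have : Fintype (MulAction.stabilizer D.G (D.Q π)) := Fintype.ofFinite _
  have hcount := count_main N (Nat.pos_of_ne_zero (NeZero.ne N))
    (S := MulAction.stabilizer D.G (D.Q π)) (T := D.G)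
    (fun g => D.c (g : D.G)) D.c (fun g => D.c_dvd g) D.c_dvd
    (fun d hd => by
      rw [← D.sum_order_stab π hπ hd]
      exact Finset.sum_congr rfl fun g _ => (D.order_U g hd).symm)
    (fun d hd => by
      rw [← D.sum_order_G hd]
      exact Finset.sum_congr rfl fun g _ => (D.order_U g hd).symm)
  have e1 : Nat.card {s : MulAction.stabilizer D.G (D.Q π) // D.c (s : D.G) = N}
      = Nat.card (D.stabJ π) :=
    Nat.card_congr (Equiv.subtypeEquivRight fun s => by
      rw [stabJ, Subgroup.mem_subgroupOf, mem_stabilizer_J_iff])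
  have e2 : Nat.card {t : D.G // D.c t = N} = Nat.card (MulAction.stabilizer D.G (D.J N)) :=
    Nat.card_congr (Equiv.subtypeEquivRight fun s => by
      rw [mem_stabilizer_J_iff])
  rw [e1, e2] at hcount
  have h1 := Subgroup.card_eq_card_quotient_mul_card_subgroup (D.stabJ π)
  have h2 := Subgroup.card_eq_card_quotient_mul_card_subgroup (MulAction.stabilizer D.G (D.J N))
  have h3 : D.deg = Nat.card (D.G ⧸ MulAction.stabilizer D.G (D.J N)) :=
    Nat.card_congr (MulAction.orbitEquivQuotientStabilizer D.G (D.J N))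
  rw [← h3] at h2
  rw [h1, h2] at hcount
  have p1 : 0 < Nat.card (D.stabJ π) := Nat.card_pos
  have p2 : 0 < Nat.card (MulAction.stabilizer D.G (D.J N)) := Nat.card_pos
  have : (Nat.card (D.stabJ π) * Nat.card (MulAction.stabilizer D.G (D.J N))) *
      Nat.card ((MulAction.stabilizer D.G (D.Q π)) ⧸ D.stabJ π) =
      (Nat.card (D.stabJ π) * Nat.card (MulAction.stabilizer D.G (D.J N))) * D.deg := by
    nlinarith [hcount]
  exact Nat.eq_of_mul_eq_mul_left (Nat.mul_pos p1 p2) this

theorem indep {k : Type} [Field k] (π : O →+* k) (hπ : Function.Surjective π)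
    (a : Fin D.deg → Polynomial k)
    (h : ∑ i, Polynomial.aeval (qExpand k N (jqModC k)) (a i) *
      (qExpand k N (qExpand k N (jqModC k))) ^ (i : ℕ) = 0) : a = 0 := by
  classical
  have : Fintype ((MulAction.stabilizer D.G (D.Q π)) ⧸ D.stabJ π) := Fintype.ofFinite _
  -- lift the coefficients
  choose A hA using fun i => Polynomial.map_surjective π hπ (a i)
  set b : D.B := ∑ i, Polynomial.aeval (D.J 1) (A i) * (D.J N) ^ (i : ℕ) with hb
  have hφ : ∀ g : D.G, D.redExp π (g • b) =
      ∑ i, Polynomial.aeval (qExpand k N (jqModC k)) (a i) * (D.redExp π (g • D.J N)) ^ (i : ℕ) := by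
    intro g
    rw [hb, Finset.smul_sum, map_sum]
    refine Finset.sum_congr rfl fun i _ => ?_
    rw [smul_mul', smul_pow', smul_aeval_J_one, map_mul, map_pow, redExp_aeval, redExp_J_one, hA]
  have hbQ : b ∈ D.Q π := by
    rw [mem_Q_iff]
    have := hφ 1
    rw [one_smul, one_smul, redExp_J_N] at this
    rw [this, h]
  -- the polynomial
  set P : Polynomial (LaurentSeries k) :=
    ∑ i : Fin D.deg, Polynomial.C (Polynomial.aeval (qExpand k N (jqModC k)) (a i)) *
      Polynomial.X ^ (i : ℕ) with hP
  have hdeg : P.degree < D.deg := Polynomial.degree_sum_fin_lt _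
  have hroot : ∀ x, P.eval (D.conj π x) = 0 := by
    intro x
    induction x using QuotientGroup.induction_on with | H g => ?_
    rw [conj_mk, hP, Polynomial.eval_finsetSum]
    simp only [Polynomial.eval_mul, Polynomial.eval_C, Polynomial.eval_pow, Polynomial.eval_X]
    rw [← hφ, ← mem_Q_iff, D.smul_mem_Q_iff π g.2]
    exact hbQ
  have hP0 : P = 0 := by
    refine Polynomial.eq_zero_of_degree_lt_of_eval_index_eq_zero (s := Finset.univ)
      (v := D.conj π) (D.conj_injective π).injOn ?_ (fun i _ => hroot i)
    rw [Finset.card_univ, ← Nat.card_eq_fintype_card, D.card_quot π hπ]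
    exact hdeg
  funext i
  apply Indep.aeval_qExpand_jqModC_eq_zero N
  have hc := congrArg (fun p => Polynomial.coeff p (i : ℕ)) hP0
  simp only [hP, Polynomial.finsetSum_coeff, Polynomial.coeff_C_mul, Polynomial.coeff_X_pow,
    Polynomial.coeff_zero] at hc
  rw [Finset.sum_eq_single i] at hc
  · simpa using hc
  · intro j _ hj
    rw [if_neg (fun h => hj (Fin.ext h.symm)), mul_zero]
  · intro hi
    exact absurd (Finset.mem_univ i) hi

end CuspData

end Fermat.Agent.S28.DG
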