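import Fermat.Agent.S28.DG.Basic

/-!
# S28, Part B: basic consequences of `CuspData`
-/

set_option autoImplicit false
open ModularCurve
open scoped Pointwise
noncomputable section

namespace Fermat.Agent.S28.DG

namespace CuspData

variable {N : ℕ} [NeZero N] {O : Type} [CommRing O] [IsDomain O] (D : CuspData N O)

/-- the number of conjugates of `j_N`. -/
def deg : ℕ := Nat.card (MulAction.orbit D.G (D.J N))

/-- a choice of "denominator" for each group element. -/
def c (g : D.G) : ℕ := (D.exists_c g).choose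

theorem c_dvd (g : D.G) : D.c g ∣ N := (D.exists_c g).choose_spec.1

theorem order_U (g : D.G) {d : ℕ} (hd : d ∣ N) :
    (D.ε (g • (D.U d : D.B))).order =
      ((N / d : ℕ) : ℤ) * ((Nat.gcd (D.c g) d : ℕ) : ℤ) ^ 2 - (N : ℤ) :=
  ((D.exists_c g).choose_spec.2.1 d hd).1

theorem isUnit_leadingCoeff_U (g : D.G) {d : ℕ} (hd : d ∣ N) :
    IsUnit (D.ε (g • (D.U d : D.B))).leadingCoeff :=
  ((D.exists_c g).choose_spec.2.1 d hd).2

theorem order_J (g : D.G) : (D.ε (g • D.J N)).order = - ((D.c g : ℤ) ^ 2) :=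
  (D.exists_c g).choose_spec.2.2.1.1

theorem isUnit_leadingCoeff_J (g : D.G) : IsUnit (D.ε (g • D.J N)).leadingCoeff :=
  (D.exists_c g).choose_spec.2.2.1.2

theorem smul_J_of_c_eq (g : D.G) (h : D.c g = N) {d : ℕ} (hd : d ∣ N) : g • D.J d = D.J d :=
  (D.exists_c g).choose_spec.2.2.2 h d hd

/-- the expansion of `j` in the variable `q_N`. -/
theorem ε_J_one : D.ε (D.J 1) = qExpand O N (jqModC O) := by
  rw [D.ε_J 1 (one_dvd N), qExpand_one_apply]

theorem ε_J_N : D.ε (D.J N) = qExpand O N (qExpand O N (jqModC O)) := D.ε_J N dvd_rfl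

/-- the kernel of "reduce the expansion mod `π`". -/
def Q {k : Type} [Field k] (π : O →+* k) : Ideal D.B :=
  RingHom.ker ((coeffMap π).comp (D.ε : D.B →+* LaurentSeries O))

end CuspData

/-- characterisation of the order of a Laurent series by its coefficients. -/
theorem laurent_order_eq_of_coeff {R : Type*} [Zero R] (y : HahnSeries ℤ R) (d : ℤ)
    (h1 : y.coeff d ≠ 0) (h2 : ∀ k < d, y.coeff k = 0) : y.order = d := by
  refine le_antisymm (HahnSeries.order_le_of_coeff_ne_zero h1) ?_
  by_contra hlt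
  have hy : y ≠ 0 := fun h => h1 (by simp [h])
  exact (HahnSeries.coeff_order_eq_zero.not.2 hy) (h2 _ (not_le.mp hlt))

/-- reduction does not change order if the leading coefficient is a unit. -/
theorem order_coeffMap_of_isUnit {O k : Type} [CommRing O] [Field k] (π : O →+* k)
    (x : LaurentSeries O) (hx : IsUnit x.leadingCoeff) :
    (coeffMap π x).order = x.order ∧ coeffMap π x ≠ 0 := by
  have h1 : (coeffMap π x).coeff x.order ≠ 0 := by
    rw [coeffMap_coeff, ← HahnSeries.leadingCoeff_eq]
    exact (hx.map π).ne_zero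
  refine ⟨laurent_order_eq_of_coeff _ _ h1 fun k hk => ?_, fun h => h1 (by simp [h])⟩
  rw [coeffMap_coeff, HahnSeries.coeff_eq_zero_of_lt_order hk, map_zero]

end Fermat.Agent.S28.DG
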