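import Fermat.Agent.S28.DG.Abstract.Basic

/-!
# S28, Part B2: characteristic zero Galois theory for `CuspData`

Plan.  `A := Polynomial O` acts on `B` through `aeval (J 1)`; `Algebra.IsInvariant A B G` by `D.invariant`.
* `monic_relation`: `MulSemiringAction.charpoly G (J N)` has `G`-invariant coefficients
  (`Algebra.IsInvariant.charpoly_mem_lifts`), so it lifts to `Φ : A[X]`, monic; apply `ε`.
* `exists_subfield`: `E := FractionRing B` with the induced `G`-action, `K_E := FixedPoints.subfield G E`,
  `IsGalois K_E E`, every automorphism comes from `G` (`FixedPoints.toAlgAut_surjective`).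
  If `g • J N = J N` then `order_J` forces `c g = N`, hence `g • J d = J d`.  By the Galois correspondence
  (`IsGalois.fixedField_fixingSubgroup`) `J d ∈ K_E⟮J N⟯`.  `natDegree (minpoly K_E (J N)) = deg`
  (`FixedPoints.minpoly_eq_minpoly`, `prodXSubSMul`).  Use `IntermediateField.adjoin.powerBasis`.
  `K_E` is the image of `FractionRing A` (`IsFractionRing.isInvariant`).  Clear denominators.
  `S :=` image of `K_E⟮J N⟯` under the field embedding `E → LaurentSeries C` induced by
  `coeffMap (algebraMap O C) ∘ ε`.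
-/

set_option autoImplicit false
open ModularCurve
noncomputable section

namespace Fermat.Agent.S28.DG

section AbstractGalois

variable {G B E : Type*} [Group G] [Finite G] [CommRing B] [IsDomain B] [MulSemiringAction G B]
  [Field E] [Algebra B E] [IsFractionRing B E] [MulSemiringAction G E] [SMulDistribClass G B E]

/-- every `G`-invariant element of `Frac B` is a quotient of `G`-invariant elements of `B`. -/
theorem cz_exists_invariant_denominator (c : E) (hc : ∀ g : G, g • c = c) :
    ∃ β α : B, β ≠ 0 ∧ (∀ g : G, g • β = β) ∧ (∀ g : G, g • α = α) ∧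
      algebraMap B E β * c = algebraMap B E α := by
  classical
  cases nonempty_fintype G
  have hinj : Function.Injective (algebraMap B E) := IsFractionRing.injective B E
  obtain ⟨x, s, hs, rfl⟩ := IsFractionRing.div_surjective B c
  have hs0 : s ≠ 0 := nonZeroDivisors.ne_zero hs
  have hβ : ∀ g : G, g • (∏ h : G, h • s) = ∏ h : G, h • s := fun g => Finset.smul_prod_perm s g
  have hmul : s * ∏ h ∈ Finset.univ.erase (1 : G), h • s = ∏ h : G, h • s := by
    have := Finset.mul_prod_erase (Finset.univ : Finset G) (fun h => h • s) (Finset.mem_univ 1)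
    simpa using this
  have heq : algebraMap B E (∏ h : G, h • s) * (algebraMap B E x / algebraMap B E s) =
      algebraMap B E (x * ∏ h ∈ Finset.univ.erase (1 : G), h • s) := by
    have hs' : algebraMap B E s ≠ 0 := by simpa using hs0
    rw [← hmul, map_mul, map_mul]
    field_simp
  refine ⟨∏ h : G, h • s, x * ∏ h ∈ Finset.univ.erase (1 : G), h • s, ?_, hβ, ?_, heq⟩
  · rw [Finset.prod_ne_zero_iff]
    intro h _
    exact (smul_ne_zero_iff_ne h).mpr hs0
  · intro g
    apply hinj
    rw [algebraMap.smul', ← heq, smul_mul', hc g, ← algebraMap.smul', hβ g]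

variable (G E) in
/-- the `E^G`-submodule of `E` of elements which, after multiplication by a nonzero invariant of `B`,
become combinations of `1, θ, …, θ^(n-1)` with coefficients invariants of `B`. -/
def czSpan (θ : B) (n : ℕ) : Submodule (FixedPoints.subfield G E) E where
  carrier := {y | ∃ (b : B) (a : Fin n → B), b ≠ 0 ∧ (∀ g : G, g • b = b) ∧
      (∀ (i : Fin n) (g : G), g • a i = a i) ∧
      algebraMap B E b * y = ∑ i, algebraMap B E (a i) * (algebraMap B E θ) ^ (i : ℕ)}
  zero_mem' := ⟨1, 0, one_ne_zero, fun g => smul_one g, fun i g => smul_zero g, by simp⟩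
  add_mem' := by
    rintro y₁ y₂ ⟨b₁, a₁, hb₁, hb₁', ha₁, h₁⟩ ⟨b₂, a₂, hb₂, hb₂', ha₂, h₂⟩
    refine ⟨b₁ * b₂, fun i => b₂ * a₁ i + b₁ * a₂ i, mul_ne_zero hb₁ hb₂, fun g => ?_,
      fun i g => ?_, ?_⟩
    · rw [smul_mul', hb₁', hb₂']
    · rw [smul_add, smul_mul', smul_mul', hb₁', hb₂', ha₁, ha₂]
    · calc algebraMap B E (b₁ * b₂) * (y₁ + y₂)
          = algebraMap B E b₂ * (algebraMap B E b₁ * y₁)
            + algebraMap B E b₁ * (algebraMap B E b₂ * y₂) := by rw [map_mul]; ring
        _ = _ := by
          rw [h₁, h₂, Finset.mul_sum, Finset.mul_sum, ← Finset.sum_add_distrib]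
          refine Finset.sum_congr rfl fun i _ => ?_
          rw [map_add, map_mul, map_mul]; ring
  smul_mem' := by
    rintro c y ⟨b, a, hb, hb', ha, h⟩
    obtain ⟨β, α, hβ, hβ', hα, hc⟩ := cz_exists_invariant_denominator (G := G) (B := B) (c : E)
      (fun g => c.2 g)
    refine ⟨β * b, fun i => α * a i, mul_ne_zero hβ hb, fun g => ?_, fun i g => ?_, ?_⟩
    · rw [smul_mul', hβ', hb']
    · rw [smul_mul', hα, ha]
    · calc algebraMap B E (β * b) * (c • y)
          = (algebraMap B E β * (c : E)) * (algebraMap B E b * y) := by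
            rw [map_mul, Subfield.smul_def, smul_eq_mul]; ring
        _ = _ := by
          rw [hc, h, Finset.mul_sum]
          refine Finset.sum_congr rfl fun i _ => ?_
          rw [map_mul]; ring

theorem cz_pow_mem_czSpan (θ : B) (n : ℕ) {i : ℕ} (hi : i < n) :
    (algebraMap B E θ) ^ i ∈ czSpan G E θ n := by
  classical
  refine ⟨1, Pi.single ⟨i, hi⟩ 1, one_ne_zero, fun g => smul_one g, fun j g => ?_, ?_⟩
  · by_cases h : j = ⟨i, hi⟩
    · subst h; simp
    · simp [Pi.single_eq_of_ne h]
  · rw [Finset.sum_eq_single (⟨i, hi⟩ : Fin n)]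
    · simp
    · intro j _ hj
      simp [Pi.single_eq_of_ne hj]
    · simp

omit [Finite G] [IsDomain B] in
theorem cz_stabilizer_eq (θ : B) :
    MulAction.stabilizer G (algebraMap B E θ) = MulAction.stabilizer G θ := by
  ext g
  rw [MulAction.mem_stabilizer_iff, MulAction.mem_stabilizer_iff, ← algebraMap.smul']
  exact (IsFractionRing.injective B E).eq_iff

omit [Finite G] [IsDomain B] in
theorem cz_natDegree_minpoly [Fintype G] (θ : B) :
    (FixedPoints.minpoly G E (algebraMap B E θ)).natDegree = Nat.card (MulAction.orbit G θ) := by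
  classical
  have h : (FixedPoints.minpoly G E (algebraMap B E θ)).natDegree =
      (prodXSubSMul G E (algebraMap B E θ)).natDegree := Polynomial.natDegree_toSubring _ _ _
  rw [h, prodXSubSMul,
    Polynomial.natDegree_finsetProd_X_sub_C_eq_card, Finset.card_univ, ← Nat.card_eq_fintype_card,
    cz_stabilizer_eq, Nat.card_congr (MulAction.orbitEquivQuotientStabilizer G θ)]

theorem cz_mem_czSpan_of_mem_adjoin (θ : B) {y : E}
    (hy : y ∈ IntermediateField.adjoin (FixedPoints.subfield G E) {algebraMap B E θ}) :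
    y ∈ czSpan G E θ (Nat.card (MulAction.orbit G θ)) := by
  classical
  cases nonempty_fintype G
  set K := FixedPoints.subfield G E
  set t : E := algebraMap B E θ
  have hint : IsIntegral K t := FixedPoints.isIntegral G E t
  have hy' : y ∈ (IntermediateField.adjoin K {t}).toSubalgebra := hy
  rw [IntermediateField.adjoin_simple_toSubalgebra_of_isAlgebraic hint.isAlgebraic,
    Algebra.adjoin_singleton_eq_range_aeval] at hy'
  obtain ⟨p, rfl⟩ := hy'
  set M := FixedPoints.minpoly G E t
  have hM : M.Monic := FixedPoints.minpoly.monic G E t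
  have hM0 : Polynomial.aeval t M = 0 := FixedPoints.minpoly.eval₂ G E t
  have hdeg : M.natDegree = Nat.card (MulAction.orbit G θ) := cz_natDegree_minpoly θ
  have h1 : Polynomial.aeval t p = Polynomial.aeval t (p %ₘ M) :=
    (Polynomial.aeval_modByMonic_eq_self_of_root hM0).symm
  have hlt : (p %ₘ M).natDegree < Nat.card (MulAction.orbit G θ) := by
    rw [← hdeg]
    exact Polynomial.natDegree_modByMonic_lt p hM (FixedPoints.minpoly.ne_one G E t)
  change Polynomial.aeval t p ∈ _
  rw [h1, Polynomial.aeval_eq_sum_range' hlt]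
  refine Submodule.sum_mem _ fun i hi => Submodule.smul_mem _ _ ?_
  exact cz_pow_mem_czSpan θ _ (Finset.mem_range.mp hi)

omit [IsDomain B] in
theorem cz_mem_adjoin (θ x : B) (h : ∀ g : G, g • θ = θ → g • x = x) :
    algebraMap B E x ∈
      IntermediateField.adjoin (FixedPoints.subfield G E) {algebraMap B E θ} := by
  have hgal : IsGalois (FixedPoints.subfield G E) E := IsGalois.of_fixed_field E G
  rw [← IsGalois.fixedField_fixingSubgroup
    (IntermediateField.adjoin (FixedPoints.subfield G E) {algebraMap B E θ}),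
    IntermediateField.mem_fixedField_iff]
  intro σ hσ
  obtain ⟨g, rfl⟩ := FixedPoints.toAlgAut_surjective G E σ
  have h1 : g • algebraMap B E θ = algebraMap B E θ :=
    hσ ⟨algebraMap B E θ, IntermediateField.mem_adjoin_simple_self _ _⟩
  rw [← algebraMap.smul'] at h1
  have h2 := h g (IsFractionRing.injective B E h1)
  change g • algebraMap B E x = algebraMap B E x
  rw [← algebraMap.smul', h2]

end AbstractGalois

section Series

theorem cz_order_eq {R : Type*} [Zero R] {x : HahnSeries ℤ R} {m : ℤ} (h1 : x.coeff m ≠ 0)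
    (h2 : ∀ k < m, x.coeff k = 0) : x.order = m := by
  refine le_antisymm (HahnSeries.order_le_of_coeff_ne_zero h1) ?_
  by_contra hlt
  rw [not_le] at hlt
  exact (HahnSeries.ne_zero_of_coeff_ne_zero h1) (HahnSeries.coeff_order_eq_zero.mp (h2 _ hlt))

theorem cz_order_jNN (O : Type*) [CommRing O] [Nontrivial O] (N : ℕ) [NeZero N] :
    (qExpand O N (qExpand O N (jqModC O))).order = -((N : ℤ) ^ 2) := by
  rw [qExpand_qExpand]
  have hp : (0 : ℤ) < ((N * N : ℕ) : ℤ) := by
    have := Nat.pos_of_ne_zero (NeZero.ne N)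
    positivity
  apply cz_order_eq
  · have : -((N : ℤ) ^ 2) = ((N * N : ℕ) : ℤ) * (-1) := by push_cast; ring
    rw [this, qExpand_coeff_mul, coeff_jqModC_neg_one]
    exact one_ne_zero
  · intro k hk
    by_cases hdvd : ((N * N : ℕ) : ℤ) ∣ k
    · obtain ⟨j, rfl⟩ := hdvd
      rw [qExpand_coeff_mul]
      apply coeff_jqModC_of_lt
      have h3 : ((N * N : ℕ) : ℤ) * j < ((N * N : ℕ) : ℤ) * (-1) := by
        refine lt_of_lt_of_eq hk ?_
        push_cast; ring
      exact lt_of_mul_lt_mul_left h3 hp.le
    · exact qExpand_coeff_of_not_dvd _ _ hdvd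

theorem cz_coeffMap_injective {R S : Type*} [CommRing R] [CommRing S] (f : R →+* S)
    (hf : Function.Injective f) : Function.Injective (coeffMap f) := by
  intro x y h
  ext k
  apply hf
  have := congrArg (fun z => HahnSeries.coeff z k) h
  simpa using this

theorem cz_coeffMap_algebraMap {O C : Type*} [CommRing O] [CommRing C] [Algebra O C] (r : O) :
    coeffMap (algebraMap O C) (algebraMap O (LaurentSeries O) r) =
      algebraMap O (LaurentSeries C) r := by
  rw [HahnSeries.algebraMap_apply', HahnSeries.algebraMap_apply', coeffMap_ofPowerSeries]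
  congr 1

end Series

namespace CuspData

variable {N : ℕ} [NeZero N] {O : Type} [CommRing O] [IsDomain O] (D : CuspData N O)

theorem cz_isDomain_B : IsDomain D.B := D.ε_injective.isDomain D.ε.toRingHom

theorem cz_c_eq_of_smul_J (g : D.G) (h : g • D.J N = D.J N) : D.c g = N := by
  have h1 := D.order_J g
  rw [h, D.ε_J_N, cz_order_jNN] at h1
  have h2 : ((D.c g : ℤ)) ^ 2 = (N : ℤ) ^ 2 := by linarith
  have h3 : (D.c g) ^ 2 = N ^ 2 := by exact_mod_cast h2
  exact Nat.pow_left_injective (n := 2) (by norm_num) h3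

/-- the expansion map with coefficients pushed to `C`. -/
def czφ (C : Type) [Field C] [Algebra O C] : D.B →+* LaurentSeries C :=
  (coeffMap (algebraMap O C)).comp D.ε.toRingHom

theorem czφ_injective (C : Type) [Field C] [Algebra O C] [FaithfulSMul O C] :
    Function.Injective (D.czφ C) :=
  (cz_coeffMap_injective _ (FaithfulSMul.algebraMap_injective O C)).comp D.ε_injective

theorem czφ_J (C : Type) [Field C] [Algebra O C] (d : ℕ) [NeZero d] (hd : d ∣ N) :
    D.czφ C (D.J d) = qExpand C N (qExpand C d (jqModC C)) := by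
  change coeffMap (algebraMap O C) (D.ε (D.J d)) = _
  rw [D.ε_J d hd, coeffMap_qExpand, coeffMap_qExpand, coeffMap_jqModC]

theorem czφ_J_one (C : Type) [Field C] [Algebra O C] :
    D.czφ C (D.J 1) = qExpand C N (jqModC C) := by
  rw [D.czφ_J C 1 (one_dvd N), qExpand_one_apply]

theorem czφ_aeval (C : Type) [Field C] [Algebra O C] (x : D.B) (p : Polynomial O) :
    D.czφ C (Polynomial.aeval x p) = Polynomial.aeval (D.czφ C x) p := by
  rw [Polynomial.aeval_def, Polynomial.aeval_def, Polynomial.hom_eval₂]
  congr 1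
  refine RingHom.ext fun r => ?_
  change coeffMap (algebraMap O C) (D.ε (algebraMap O D.B r)) = _
  rw [AlgHom.commutes, cz_coeffMap_algebraMap]

include D in
theorem monic_relation :
    ∃ Φ : Polynomial (Polynomial O), Φ.Monic ∧
      Φ.eval₂ (Polynomial.aeval (qExpand O N (jqModC O))).toRingHom
        (qExpand O N (qExpand O N (jqModC O))) = 0 := by
  classical
  cases nonempty_fintype D.G
  let _ : Algebra (Polynomial O) D.B := (Polynomial.aeval (D.J 1)).toRingHom.toAlgebra
  have : Algebra.IsInvariant (Polynomial O) D.B D.G := ⟨fun b hb => D.invariant b hb⟩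
  obtain ⟨Φ, hΦ1, -, hΦ2⟩ := Polynomial.lifts_and_natDegree_eq_and_monic
    (Algebra.IsInvariant.charpoly_mem_lifts (Polynomial O) D.B D.G (D.J N))
    (MulSemiringAction.monic_charpoly D.G (D.J N))
  refine ⟨Φ, hΦ2, ?_⟩
  have h0 : Φ.eval₂ (Polynomial.aeval (D.J 1)).toRingHom (D.J N) = 0 := by
    have h := MulSemiringAction.eval_charpoly D.G (D.J N)
    rw [← hΦ1, Polynomial.eval_map] at h
    exact h
  have h1 := congrArg D.ε.toRingHom h0
  rw [map_zero, Polynomial.hom_eval₂] at h1
  have h2 : D.ε.toRingHom.comp (Polynomial.aeval (R := O) (D.J 1)).toRingHom =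
      (Polynomial.aeval (qExpand O N (jqModC O))).toRingHom := by
    rw [← D.ε_J_one, Polynomial.aeval_algHom D.ε (D.J 1)]
    rfl
  rw [h2] at h1
  have h3 : D.ε.toRingHom (D.J N) = qExpand O N (qExpand O N (jqModC O)) := D.ε_J_N
  rw [h3] at h1
  exact h1

theorem exists_subfield (C : Type) [Field C] [Algebra O C] [FaithfulSMul O C] :
    ∃ S : Subfield (LaurentSeries C),
      (∀ (d : ℕ) [NeZero d], d ∣ N → qExpand C N (qExpand C d (jqModC C)) ∈ S) ∧
      ∀ y ∈ S, ∃ (b : Polynomial O) (a : Fin D.deg → Polynomial O), b ≠ 0 ∧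
        Polynomial.aeval (qExpand C N (jqModC C)) b * y =
          ∑ i, Polynomial.aeval (qExpand C N (jqModC C)) (a i) *
            (qExpand C N (qExpand C N (jqModC C))) ^ (i : ℕ) := by
  classical
  have : IsDomain D.B := D.cz_isDomain_B
  let E := FractionRing D.B
  let _ : MulSemiringAction D.G E := IsFractionRing.mulSemiringAction D.G D.B E
  have : SMulDistribClass D.G D.B E := IsFractionRing.smulDistribClass D.G D.B E
  let ψ : E →+* LaurentSeries C := IsFractionRing.lift (D.czφ_injective C)
  have hψ : ∀ x : D.B, ψ (algebraMap D.B E x) = D.czφ C x := fun x =>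
    IsFractionRing.lift_algebraMap (D.czφ_injective C) x
  refine ⟨(IntermediateField.adjoin (FixedPoints.subfield D.G E)
    {algebraMap D.B E (D.J N)}).toSubfield.map ψ, ?_, ?_⟩
  · intro d _ hd
    rw [← D.czφ_J C d hd, ← hψ]
    refine Subfield.mem_map.mpr ⟨_, ?_, rfl⟩
    exact cz_mem_adjoin (D.J N) (D.J d) fun g hg =>
      D.smul_J_of_c_eq g (D.cz_c_eq_of_smul_J g hg) hd
  · intro y hy
    obtain ⟨y', hy', rfl⟩ := Subfield.mem_map.mp hy
    obtain ⟨b, a, hb, hb', ha, h⟩ := cz_mem_czSpan_of_mem_adjoin (D.J N) hy'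
    obtain ⟨pb, hpb⟩ := D.invariant b hb'
    choose pa hpa using fun i => D.invariant (a i) (ha i)
    refine ⟨pb, pa, ?_, ?_⟩
    · rintro rfl
      exact hb (by rw [← hpb, map_zero])
    · have h' := congrArg ψ h
      rw [map_mul, map_sum, hψ, ← hpb, D.czφ_aeval, D.czφ_J_one] at h'
      rw [h']
      refine Finset.sum_congr rfl fun i _ => ?_
      rw [map_mul, map_pow, hψ, hψ, ← hpa i, D.czφ_aeval, D.czφ_J_one, D.czφ_J C N dvd_rfl]

end CuspData

end Fermat.Agent.S28.DG
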