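import Fermat.Agent.S28.DG.Abstract.Basic

/-!
# S28, Part B3a/b: the modular-unit argument

`sum_order_G`:  `w = ∏_g g • U d` is `G`-invariant, so `w = p(j)`, likewise `w⁻¹ = p'(j)`.  As `ε (J 1)` has a
pole, `order (ε (p(j))) = deg p * order (ε j)`; from `p(j) p'(j) = 1` we get `deg p = 0`; hence `ε w` has order `0`.
`order` is additive on products (`LaurentSeries O` is a domain).

`sum_order_stab`:  let `φ = coeffMap π ∘ ε : B → k((q_N))`, `Q = ker φ = D.Q π` (prime), `S = Stab Q`.
* Choose `t ∈ B` with `h • t ∈ Q ↔ h • Q ≠ Q` (`exists_smul_mem_iff_smul_ne`).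
* If `h • b ∈ Q` for all `h ∉ S`, the coefficient of `X^(|G|-|S|)` of `∏_g (X + g • b)` is `G`-invariant and is
  congruent mod `Q` to `∏_{g ∈ S} g • b` (`exists_invariant_sub_prod_mem`).
* Applying this to `t` and to `t * b` we get invariant `a ∉ Q`, `c` with `φ a * ∏_{g ∈ S} φ (g • b) = φ c`
  (`exists_mul_prod_stabilizer_eq`), i.e. `y = ∏_{g ∈ S} φ (g • b) ∈ k(j)`.
* `y` is integral over `k[j]`, and `k[j] ≅ k[X]` is integrally closed, so `y = r(j)`
  (`exists_eq_of_isIntegralElem_of_mul_eq`).
* The same for `b⁻¹`, so `r(j) r'(j) = 1` and `y` has order `0` as in `sum_order_G`.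
Finally `order (coeffMap π (ε (g • U d))) = order (ε (g • U d))` by `order_coeffMap_of_isUnit`.
-/

set_option autoImplicit false
open ModularCurve
open scoped Pointwise
noncomputable section

namespace Fermat.Agent.S28.DG

section AbstractInvariant

open Polynomial

variable {B : Type*} [CommRing B] {G : Type*} [Group G] [MulSemiringAction G B]

/-- An element separating a prime `Q` from its other conjugates. -/
theorem exists_smul_mem_iff_smul_ne [Finite G] (Q : Ideal B) [Q.IsPrime] :
    ∃ t : B, ∀ h : G, h • t ∈ Q ↔ h • Q ≠ Q := by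
  classical
  obtain ⟨_⟩ := nonempty_fintype G
  let P := Finset.inf {g : G | g • Q ≠ Q} (fun g ↦ g • Q)
  have h1 : ¬ P ≤ Q := by
    rw [Ideal.IsPrime.inf_le' inferInstance]
    rintro ⟨g, hg1, hg2⟩
    exact (Finset.mem_filter.mp hg1).2 (smul_eq_of_smul_le hg2)
  obtain ⟨b, hbP, hbQ⟩ := SetLike.not_le_iff_exists.mp h1
  replace hbP : ∀ g : G, g • Q ≠ Q → b ∈ g • Q :=
    fun g hg ↦ (Finset.inf_le (Finset.mem_filter.mpr ⟨Finset.mem_univ g, hg⟩) : P ≤ g • Q) hbP
  refine ⟨b, fun h => ⟨fun hb hQ => ?_, fun hQ => ?_⟩⟩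
  · rw [← hQ, Ideal.smul_mem_pointwise_smul_iff] at hb
    exact hbQ hb
  · have h2 : h⁻¹ • Q ≠ Q := fun h' => hQ (by rw [← h', smul_inv_smul, h'])
    have h3 := hbP h⁻¹ h2
    rwa [Ideal.mem_inv_pointwise_smul_iff] at h3

/-- If `b` lies in all conjugates of `Q` other than `Q`, then the partial norm over the
stabiliser of `Q` is congruent mod `Q` to a `G`-invariant element. -/
theorem exists_invariant_sub_prod_mem [Fintype G] (Q : Ideal B)
    [DecidablePred fun g : G => g • Q = Q] (b : B)
    (hb : ∀ h : G, h • Q ≠ Q → h • b ∈ Q) :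
    ∃ c : B, (∀ g : G, g • c = c) ∧
      Ideal.Quotient.mk Q c =
        ∏ g ∈ Finset.univ.filter (fun g : G => g • Q = Q), Ideal.Quotient.mk Q (g • b) := by
  classical
  set S := Finset.univ.filter (fun g : G => g • Q = Q) with hS
  set T := Finset.univ.filter (fun g : G => ¬ g • Q = Q) with hT
  refine ⟨(MulSemiringAction.charpoly G (-b)).coeff (0 + T.card),
    fun g => MulSemiringAction.smul_coeff_charpoly _ _ g, ?_⟩
  have key : (MulSemiringAction.charpoly G (-b)).map (Ideal.Quotient.mk Q) =
      (∏ g ∈ S, (X + C (Ideal.Quotient.mk Q (g • b)))) * X ^ T.card := by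
    rw [MulSemiringAction.charpoly_eq, Polynomial.map_prod,
      ← Finset.prod_filter_mul_prod_filter_not Finset.univ (fun g : G => g • Q = Q)]
    congr 1
    · refine Finset.prod_congr rfl fun g _ => ?_
      simp
    · rw [← Finset.prod_const]
      refine Finset.prod_congr rfl fun g hg => ?_
      have : Ideal.Quotient.mk Q (g • b) = 0 :=
        Ideal.Quotient.eq_zero_iff_mem.mpr (hb g (Finset.mem_filter.mp hg).2)
      simp [this]
  rw [← Polynomial.coeff_map, key, Polynomial.coeff_mul_X_pow, Polynomial.coeff_zero_eq_eval_zero,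
    Polynomial.eval_prod]
  simp

/-- version of the previous lemma for `Q = ker φ`. -/
theorem exists_invariant_map_eq_prod [Fintype G] {F : Type*} [CommRing F] (φ : B →+* F)
    [DecidablePred fun g : G => g • RingHom.ker φ = RingHom.ker φ] (b : B)
    (hb : ∀ h : G, h • RingHom.ker φ ≠ RingHom.ker φ → φ (h • b) = 0) :
    ∃ c : B, (∀ g : G, g • c = c) ∧
      φ c = ∏ g ∈ Finset.univ.filter (fun g : G => g • RingHom.ker φ = RingHom.ker φ),
        φ (g • b) := by
  obtain ⟨c, hc, h⟩ := exists_invariant_sub_prod_mem (RingHom.ker φ) b hb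
  refine ⟨c, hc, ?_⟩
  have h2 := congrArg (RingHom.kerLift φ) h
  rw [map_prod] at h2
  simpa using h2

/-- **Partial norms are "rational".**  `G` finite acting on `B` with invariants `f(A)`,
`φ : B → F` a ring hom to a domain.  For all `b`, the product of the `φ (g • b)` over the
stabiliser of `ker φ` is a quotient of two elements of `φ (f A)`. -/
theorem exists_mul_prod_stabilizer_eq [Finite G] {A F : Type*} [CommRing A] [CommRing F]
    [IsDomain F] (f : A →+* B) (hinv : ∀ b : B, (∀ g : G, g • b = b) → ∃ a, f a = b)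
    (φ : B →+* F) [Fintype (MulAction.stabilizer G (RingHom.ker φ))] (b : B) :
    ∃ a c : A, φ (f a) ≠ 0 ∧
      φ (f a) * ∏ g : MulAction.stabilizer G (RingHom.ker φ), φ ((g : G) • b) = φ (f c) := by
  classical
  obtain ⟨_⟩ := nonempty_fintype G
  have : (RingHom.ker φ).IsPrime := RingHom.ker_isPrime φ
  obtain ⟨t, ht⟩ := exists_smul_mem_iff_smul_ne (G := G) (RingHom.ker φ)
  obtain ⟨a₁, ha₁, ha₁'⟩ := exists_invariant_map_eq_prod (G := G) φ t
    (fun h hh => (ht h).mpr hh)
  obtain ⟨c₁, hc₁, hc₁'⟩ := exists_invariant_map_eq_prod (G := G) φ (t * b)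
    (fun h hh => by
      have : φ (h • t) = 0 := (ht h).mpr hh
      rw [smul_mul', map_mul, this, zero_mul])
  obtain ⟨a, rfl⟩ := hinv a₁ ha₁
  obtain ⟨c, rfl⟩ := hinv c₁ hc₁
  have hconv : ∀ x : B, ∏ g : MulAction.stabilizer G (RingHom.ker φ), φ ((g : G) • x) =
      ∏ g ∈ Finset.univ.filter (fun g : G => g • RingHom.ker φ = RingHom.ker φ), φ (g • x) := by
    intro x
    refine (Finset.prod_subtype _ (fun g => ?_) (fun g => φ (g • x))).symm
    simp [MulAction.mem_stabilizer_iff]
  refine ⟨a, c, ?_, ?_⟩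
  · rw [ha₁', Finset.prod_ne_zero_iff]
    intro g hg h0
    exact (ht g).mp h0 (Finset.mem_filter.mp hg).2
  · rw [hconv, ha₁', hc₁', ← Finset.prod_mul_distrib]
    refine Finset.prod_congr rfl fun g _ => ?_
    rw [smul_mul', map_mul]

/-- Integrality over the invariants (ring hom version of `Algebra.IsInvariant.isIntegral`). -/
theorem isIntegralElem_of_invariant [Finite G] {A : Type*} [CommRing A] (f : A →+* B)
    (hinv : ∀ b : B, (∀ g : G, g • b = b) → ∃ a, f a = b) (b : B) : f.IsIntegralElem b := by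
  cases nonempty_fintype G
  have hl : MulSemiringAction.charpoly G b ∈ Polynomial.lifts f :=
    (MulSemiringAction.charpoly G b).lifts_iff_coeff_lifts.mpr fun n ↦
      hinv _ (MulSemiringAction.smul_coeff_charpoly b n)
  obtain ⟨p, hp1, -, hp2⟩ := Polynomial.lifts_and_natDegree_eq_and_monic hl
    (MulSemiringAction.monic_charpoly G b)
  exact ⟨p, hp2, by rw [← eval_map, hp1, MulSemiringAction.eval_charpoly]⟩

/-- A UFD is integrally closed (ring hom version, inside an arbitrary field). -/
theorem exists_eq_of_isIntegralElem_of_mul_eq {R F : Type*} [CommRing R] [IsDomain R]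
    [UniqueFactorizationMonoid R] [Field F] (ψ : R →+* F) (hψ : Function.Injective ψ) {y : F}
    (hy : ψ.IsIntegralElem y) {a c : R} (ha : ψ a ≠ 0) (h : ψ a * y = ψ c) : ∃ r, ψ r = y := by
  obtain ⟨p, hp, hpy⟩ := hy
  set K := FractionRing R
  set ι : K →+* F := IsFractionRing.lift hψ with hι
  set x : K := algebraMap R K c / algebraMap R K a with hx
  have hιx : ι x = y := by
    rw [hx, map_div₀, hι, IsFractionRing.lift_algebraMap, IsFractionRing.lift_algebraMap, ← h]
    field_simp
  have hcomp : ι.comp (algebraMap R K) = ψ := by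
    ext r
    simp [hι]
  have hroot : aeval x p = 0 := by
    apply ι.injective
    rw [map_zero, aeval_def, Polynomial.hom_eval₂, hcomp, hιx, hpy]
  obtain ⟨r, hr⟩ := isInteger_of_is_root_of_monic hp hroot
  exact ⟨r, by rw [← hιx, ← hr, hι, IsFractionRing.lift_algebraMap]⟩

end AbstractInvariant

section Order

open Polynomial

theorem algebraMap_laurent_eq_C {R : Type*} [CommRing R] :
    algebraMap R (LaurentSeries R) = HahnSeries.C := by
  ext1 c
  have h1 : algebraMap R (PowerSeries R) c = PowerSeries.C c := by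
    simp
  rw [HahnSeries.algebraMap_apply', h1, HahnSeries.ofPowerSeries_C]

variable {R : Type*} [CommRing R] [IsDomain R]

/-- the order of a finite product of nonzero Laurent series. -/
theorem laurent_order_prod {ι : Type*} (s : Finset ι) (f : ι → LaurentSeries R)
    (hf : ∀ i ∈ s, f i ≠ 0) : (∏ i ∈ s, f i).order = ∑ i ∈ s, (f i).order := by
  classical
  induction s using Finset.induction_on with
  | empty => simp
  | insert a s ha ih =>
    rw [Finset.prod_insert ha, Finset.sum_insert ha,
      HahnSeries.order_mul (hf a (Finset.mem_insert_self a s))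
        (Finset.prod_ne_zero_iff.mpr fun i hi => hf i (Finset.mem_insert_of_mem hi)),
      ih fun i hi => hf i (Finset.mem_insert_of_mem hi)]

/-- the order of a polynomial in a Laurent series with a pole. -/
theorem laurent_order_eval₂_C (x : LaurentSeries R) (hx : x.order < 0) (p : R[X]) (hp : p ≠ 0) :
    (p.eval₂ HahnSeries.C x).order = p.natDegree * x.order := by
  have hx0 : x ≠ 0 := fun h => by simp [h] at hx
  have hcoeff : ∀ k : ℤ, (p.eval₂ HahnSeries.C x).coeff k =
      ∑ i ∈ Finset.range (p.natDegree + 1), p.coeff i * (x ^ i).coeff k := by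
    intro k
    rw [Polynomial.eval₂_eq_sum_range, HahnSeries.coeff_sum]
    refine Finset.sum_congr rfl fun i _ => ?_
    rw [HahnSeries.C_mul_eq_smul, HahnSeries.coeff_smul, smul_eq_mul]
  have hord : ∀ i : ℕ, (x ^ i).order = i * x.order := fun i => by
    rw [HahnSeries.order_pow, nsmul_eq_mul]
  refine laurent_order_eq_of_coeff _ _ ?_ fun k hk => ?_
  · rw [hcoeff, Finset.sum_eq_single p.natDegree]
    · refine mul_ne_zero (Polynomial.leadingCoeff_ne_zero.mpr hp) ?_
      rw [← hord]
      exact HahnSeries.coeff_order_eq_zero.not.2 (pow_ne_zero _ hx0)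
    · intro i hi hne
      rw [HahnSeries.coeff_eq_zero_of_lt_order, mul_zero]
      rw [hord]
      have hlt : (i : ℤ) < p.natDegree := by
        have := Finset.mem_range.mp hi
        exact_mod_cast lt_of_le_of_ne (Nat.lt_succ_iff.mp this) hne
      nlinarith
    · intro h
      exact absurd (Finset.mem_range.mpr (Nat.lt_succ_self _)) h
  · rw [hcoeff]
    refine Finset.sum_eq_zero fun i hi => ?_
    rw [HahnSeries.coeff_eq_zero_of_lt_order, mul_zero]
    rw [hord]
    have hle : (i : ℤ) ≤ p.natDegree := by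
      exact_mod_cast Nat.lt_succ_iff.mp (Finset.mem_range.mp hi)
    nlinarith

/-- a Laurent series with a pole is transcendental over the constants. -/
theorem laurent_eval₂_C_injective (x : LaurentSeries R) (hx : x.order < 0) :
    Function.Injective (Polynomial.eval₂RingHom HahnSeries.C x) := by
  rw [injective_iff_map_eq_zero]
  intro p hp
  by_contra hne
  have h1 := laurent_order_eval₂_C x hx p hne
  have h2 := laurent_order_eval₂_C x hx (p * X) (mul_ne_zero hne X_ne_zero)
  rw [Polynomial.coe_eval₂RingHom] at hp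
  rw [Polynomial.eval₂_mul, hp, zero_mul, HahnSeries.order_zero,
    Polynomial.natDegree_mul_X hne] at h2
  push_cast at h2
  have : (0:ℤ) ≤ p.natDegree := Int.natCast_nonneg _
  nlinarith

/-- a polynomial in a Laurent series with a pole which is invertible by another such polynomial
has order `0`. -/
theorem laurent_order_eq_zero_of_mul_eq_one (x : LaurentSeries R) (hx : x.order < 0) (p p' : R[X])
    (h : p.eval₂ HahnSeries.C x * p'.eval₂ HahnSeries.C x = 1) :
    (p.eval₂ HahnSeries.C x).order = 0 := by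
  have hp : p ≠ 0 := fun h0 => by simp [h0] at h
  have hp' : p' ≠ 0 := fun h0 => by simp [h0] at h
  have h1 := laurent_order_eval₂_C x hx p hp
  have h2 := laurent_order_eval₂_C x hx p' hp'
  have h3 := congrArg HahnSeries.order h
  rw [HahnSeries.order_mul (left_ne_zero_of_mul_eq_one h) (right_ne_zero_of_mul_eq_one h),
    HahnSeries.order_one, h1, h2] at h3
  have h4 : (0:ℤ) ≤ p.natDegree := Int.natCast_nonneg _
  have h5 : (0:ℤ) ≤ p'.natDegree := Int.natCast_nonneg _
  have h6 : (p.natDegree : ℤ) = 0 := by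
    by_contra hne
    have : (0:ℤ) < p.natDegree := lt_of_le_of_ne h4 (Ne.symm hne)
    nlinarith
  rw [h1, h6, zero_mul]

/-- `j(q_N^N)` has a pole. -/
theorem order_qExpand_jqModC_neg (N : ℕ) [NeZero N] :
    (qExpand R N (jqModC R)).order < 0 := by
  have h : (qExpand R N (jqModC R)).coeff ((N : ℤ) * (-1)) ≠ 0 := by
    rw [qExpand_coeff_mul, coeff_jqModC_neg_one]
    exact one_ne_zero
  have hN : (0 : ℤ) < N := by exact_mod_cast Nat.pos_of_ne_zero (NeZero.ne N)
  have := HahnSeries.order_le_of_coeff_ne_zero h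
  linarith

end Order

namespace CuspData

variable {N : ℕ} [NeZero N] {O : Type} [CommRing O] [IsDomain O] (D : CuspData N O)

/-- the expansion of a polynomial in `j`. -/
theorem ε_aeval_J_one (p : Polynomial O) :
    D.ε (Polynomial.aeval (D.J 1) p) = p.eval₂ HahnSeries.C (qExpand O N (jqModC O)) := by
  rw [← Polynomial.aeval_algHom_apply, D.ε_J_one, Polynomial.aeval_def, algebraMap_laurent_eq_C]

theorem ε_smul_U_ne_zero (g : D.G) (d : ℕ) : D.ε (g • (D.U d : D.B)) ≠ 0 := by
  have h : IsUnit (D.ε (g • (D.U d : D.B))) :=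
    (((D.U d).isUnit.map (MulSemiringAction.toRingHom D.G D.B g))).map D.ε
  exact h.ne_zero

theorem sum_order_G [Fintype D.G] {d : ℕ} (hd : d ∣ N) :
    ∑ g : D.G, (D.ε (g • (D.U d : D.B))).order = 0 := by
  obtain ⟨p, hp⟩ := D.invariant (∏ g : D.G, g • (D.U d : D.B)) (Finset.smul_prod_perm _)
  obtain ⟨p', hp'⟩ := D.invariant (∏ g : D.G, g • (((D.U d)⁻¹ : D.Bˣ) : D.B))
    (Finset.smul_prod_perm _)
  have hmul : (∏ g : D.G, g • (D.U d : D.B)) * ∏ g : D.G, g • (((D.U d)⁻¹ : D.Bˣ) : D.B) = 1 := by
    rw [← Finset.prod_mul_distrib]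
    refine Finset.prod_eq_one fun g _ => ?_
    rw [← smul_mul', Units.mul_inv, smul_one]
  have h1 : p.eval₂ HahnSeries.C (qExpand O N (jqModC O)) *
      p'.eval₂ HahnSeries.C (qExpand O N (jqModC O)) = 1 := by
    rw [← D.ε_aeval_J_one, ← D.ε_aeval_J_one, hp, hp', ← map_mul, hmul, map_one]
  have h2 := laurent_order_eq_zero_of_mul_eq_one _ (order_qExpand_jqModC_neg N) p p' h1
  rw [← D.ε_aeval_J_one, hp, map_prod,
    laurent_order_prod _ _ fun g _ => D.ε_smul_U_ne_zero g d] at h2
  exact h2

theorem sum_order_stab {k : Type} [Field k] (π : O →+* k) (hπ : Function.Surjective π)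
    [Fintype (MulAction.stabilizer D.G (D.Q π))] {d : ℕ} (hd : d ∣ N) :
    ∑ g : MulAction.stabilizer D.G (D.Q π), (D.ε ((g : D.G) • (D.U d : D.B))).order = 0 := by
  -- notation
  set φ : D.B →+* LaurentSeries k := (coeffMap π).comp (D.ε : D.B →+* LaurentSeries O) with hφ
  set f : Polynomial O →+* D.B :=
    ((Polynomial.aeval (D.J 1) : Polynomial O →ₐ[O] D.B) : Polynomial O →+* D.B) with hf
  set x : LaurentSeries k := qExpand k N (jqModC k) with hx
  set ψ : Polynomial k →+* LaurentSeries k := Polynomial.eval₂RingHom HahnSeries.C x with hψ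
  have hxneg : x.order < 0 := order_qExpand_jqModC_neg N
  have hψinj : Function.Injective ψ := laurent_eval₂_C_injective x hxneg
  have hQ : D.Q π = RingHom.ker φ := rfl
  have hinv : ∀ b : D.B, (∀ g : D.G, g • b = b) → ∃ a, f a = b := D.invariant
  -- `φ ∘ f` factors through `k[X]`
  have hcomp : φ.comp f = ψ.comp (Polynomial.mapRingHom π) := by
    refine Polynomial.ringHom_ext (fun a => ?_) ?_
    · simp only [hφ, hf, hψ, RingHom.comp_apply, RingHom.coe_coe, Polynomial.aeval_C,
        AlgHom.commutes, Polynomial.coe_mapRingHom, Polynomial.map_C, Polynomial.coe_eval₂RingHom,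
        Polynomial.eval₂_C, algebraMap_laurent_eq_C]
      rw [HahnSeries.C_apply, HahnSeries.C_apply, coeffMap_single]
    · simp only [hφ, hf, hψ, RingHom.comp_apply, RingHom.coe_coe, Polynomial.aeval_X,
        Polynomial.coe_mapRingHom, Polynomial.map_X, Polynomial.coe_eval₂RingHom,
        Polynomial.eval₂_X]
      rw [D.ε_J_one, coeffMap_qExpand, coeffMap_jqModC]
  have hcomp' : ∀ a, φ (f a) = ψ (a.map π) := fun a => congrArg (fun F => F a) hcomp
  -- every partial norm is a polynomial in `j`
  have key : ∀ b : D.B, ∃ r : Polynomial k,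
      ψ r = ∏ g : MulAction.stabilizer D.G (D.Q π), φ ((g : D.G) • b) := by
    intro b
    letI : Fintype (MulAction.stabilizer D.G (RingHom.ker φ)) :=
      ‹Fintype (MulAction.stabilizer D.G (D.Q π))›
    obtain ⟨a, c, ha, hac⟩ := exists_mul_prod_stabilizer_eq (G := D.G) f hinv φ b
    rw [hcomp', hcomp'] at hac
    rw [hcomp'] at ha
    refine exists_eq_of_isIntegralElem_of_mul_eq ψ hψinj ?_ ha hac
    obtain ⟨P, hP, hP0⟩ := isIntegralElem_of_invariant (G := D.G) f hinv
      (∏ g : MulAction.stabilizer D.G (D.Q π), (g : D.G) • b)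
    refine ⟨P.map (Polynomial.mapRingHom π), hP.map _, ?_⟩
    rw [Polynomial.eval₂_map, ← hcomp, ← map_prod, ← Polynomial.hom_eval₂, hP0, map_zero]
  obtain ⟨r, hr⟩ := key (D.U d : D.B)
  obtain ⟨r', hr'⟩ := key (((D.U d)⁻¹ : D.Bˣ) : D.B)
  have hmul : ψ r * ψ r' = 1 := by
    rw [hr, hr', ← Finset.prod_mul_distrib]
    refine Finset.prod_eq_one fun g _ => ?_
    rw [← map_mul, ← smul_mul', Units.mul_inv, smul_one, map_one]
  have h0 : (ψ r).order = 0 := laurent_order_eq_zero_of_mul_eq_one x hxneg r r' hmul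
  have hred : ∀ g : D.G, (φ (g • (D.U d : D.B))).order = (D.ε (g • (D.U d : D.B))).order ∧
      φ (g • (D.U d : D.B)) ≠ 0 := fun g =>
    order_coeffMap_of_isUnit π _ (D.isUnit_leadingCoeff_U g hd)
  rw [hr, laurent_order_prod _ (fun g : MulAction.stabilizer D.G (D.Q π) =>
    φ ((g : D.G) • (D.U d : D.B))) fun g _ => (hred g).2] at h0
  rw [← h0]
  exact Finset.sum_congr rfl fun g _ => ((hred g).1).symm

end CuspData

end Fermat.Agent.S28.DG
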